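import Mathlib
import Fermat.Agent.LT.T7.H305.MatchCut

/-!
# Row LT, tower T7, node C2.7.7 `FactDownC305` (helper558, registry 2571): THE CUT -- Spec

OFF-MAIN.  Definitions and frozen Props only (the proved tops are in `FactDownTop.lean`).
No hole, nothing assumed.  ADDITIVE (new names only, suffix `558`).  Vocabulary:
`T7/H305/MatchCut.lean` (helper305, sha256 0f302b81) and its imports, byte-identical copies.

    factDownC_of_parts558 : CutOnDownC558 K → FactIntDownC558 K → FactDownC305 K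
    cutOnDownC_of558 : SuppDownC305 K → OutOpenC558 K → CompContC558 K → TorCommIdC558 K →
        SuppOutC558 K → HaarSigmaC558 K → CutOnOutC558 K → CutOnDownC558 K
    factIntDownC_of558 : HaarSplitC305 K → CompContC558 K → BiInvContC558 K → RayFinC558 K →
        PtFactC558 K → ArchIntblC558 → HaarSigmaC558 K → FactIntDownC558 K

## The cut

Cut-off part (`IsCutOn305` of the product cut-off `β = prodCut305 S cT L`):
* `OutOpenC558`, `CompContC558` (ASSETS): `Out_S` is open, the components are continuous; so `β`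
  is measurable.
* `SuppOutC558`: on the support of the integrand `x⁻¹ γ x ∈ Out_S`; `SuppDownC305` (helper305):
  `x = t x'`, `t ∈ T_𝔸(γ)`, `x' ∈ Out_S`.
* `TorCommIdC558`: `T_𝔸(γ)` is commutative, so the Haar measure `μT` is right invariant:
  `∫ β(t₁ t x') dμT(t₁) = ∫ β(t₁ x') dμT(t₁)` (proved in the top).
* `CutOnOutC558`: `∫ β(t x') dμT(t) = 1` for `x' ∈ Out_S` (torus constant + Fubini + local
  cut-offs).

Integral part:
* `RayFinC558`: the sum over the ray is a finite sum over `j ∈ J`, `J` independent of `y`.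
* `PtFactC558`: for `y ∈ Out_S` the term `j` of the integrand is the product of the local terms.
* `HaarSplitC305` (helper305): the constant `c_G`; Fubini for products of functions needs NO
  integrability (`MeasureTheory.integral_prod_mul`, `integral_fintype_prod_eq_prod`), only
  σ-finite measures (`HaarSigmaC558`).
* `ArchIntblC558`: the local integrands at the infinite places are integrable (needed to
  exchange the finite sum over `j` with the integral over `∏_w GL₂(ℂ)`).

FALSITY CHECKS (helper558).  `RayFinC558`: `det (z⁻¹ γ_w r_w^j z) = det γ_w · t^{2j}`, `t > 1`,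
`det (supp F_w)` is a compact subset of `ℂ \ {0}`; stated for EVERY `w` (`J` = union).
`PtFactC558`: `r` is trivial at the finite places and central at the infinite places; `γ` is
integral outside `S` with integral inverse (`InU 0`); `(id).onG y = y`.  `CutOnOutC558`:
`t x' ∈ Out_S ⟺ t ∈ Out_S` for `x' ∈ Out_S`; the constant `cT` cancels.  `ArchIntblC558`:
`∫ |F(y⁻¹ γ' y)| β(y) dy ≤ ‖F‖ m⁻¹ ∫ χ` (closed orbit: `{y : y⁻¹ γ' y ∈ supp F} ⊆ T C`, `C`
compact; Tonelli; `T` commutative).  `HaarSigmaC558`: `GL₂(K_v)`, `GL₂(ℂ)` are σ-compact, closed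
subgroups of them too, Haar measures are finite on compact sets.
-/

set_option autoImplicit false

open AutomorphicForm IsDedekindDomain NumberField MeasureTheory
open scoped ComplexConjugate

noncomputable section

namespace Fermat.Agent.LT.T7.H558

open Fermat.Agent.LT.H556 Fermat.Agent.LT.H556.A0 Fermat.Agent.LT.T7 Fermat.Agent.LT.T7.H305

attribute [local instance] Fermat.Agent.LT.T5.instMeasurableSpaceG

/-- The local integrand `y ↦ f(y⁻¹ γ y) β(y)` (any group); `locInt305 μ β f γ` is its integral. -/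
def locFn558 {H : Type} [Group H] (β : H → ℝ) (f : H → ℂ) (γ : H) : H → ℂ :=
  fun y => f (y⁻¹ * γ * y) * ((β y : ℝ) : ℂ)

section OneField

variable (K : Type) [Field K] [NumberField K]

/-- **ASSET LEAF FD.1 = OUT-OPEN.**  `Out_S = {y : y_v, y_v⁻¹ integral for v ∉ S}` is open in
`GL₂(𝔸_K)`.
Proof.  The adeles which are integral outside `S` form an open set
(`RestrictedProduct.isOpen_forall_imp_mem`), the entries of `y` and of `y⁻¹` are continuous
functions of `y` (topology of units). -/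
def OutOpenC558 : Prop :=
  ∀ S : Finset (HeightOneSpectrum (𝓞 K)), IsOpen {y : G K | OutT305 S y}

/-- **ASSET LEAF FD.2 = COMP-CONT.**  The components `GL₂(𝔸_K) → GL₂(K_v)`, `GL₂(𝔸_K) → GL₂(ℂ)`
are continuous.
Proof.  `T5.finHom v`, `T5.infHom w` are continuous ring homomorphisms
(`RestrictedProduct.continuous_eval`, `isometry_extensionEmbedding`); `Units.map` of a
continuous homomorphism of topological monoids is continuous. -/
def CompContC558 : Prop :=
  (∀ v : HeightOneSpectrum (𝓞 K), Continuous (finGL305 (K := K) v)) ∧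
    ∀ w : InfinitePlace K, Continuous (infGL305 (K := K) w)

/-- **LEAF FD.3 = TOR-COMM-ID.**  The centraliser of an elliptic `γ ∈ GL₂(K)` in `GL₂(𝔸_K)` is
commutative.
Proof.  `(id).onG x = x`; `γ` is not a scalar matrix; Cramer over the commutative ring `𝔸_K`
(helper233 `comm_of_comm_disc233`; the discriminant of `γ` is a unit of `K`). -/
def TorCommIdC558 : Prop :=
  ∀ γ : GL (Fin 2) K, T6.IsEll γ →
    ∀ x ∈ tA305 (T5.AdelicAut.id K) γ, ∀ y ∈ tA305 (T5.AdelicAut.id K) γ, x * y = y * x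

/-- **LEAF FD.4 = SUPP-OUT.**  On the support of the integrand (pure tensor, untwisted):
`x⁻¹ γ x ∈ Out_S`.
Proof.  A non-zero `tsum` has a non-zero term: `pure305 S f₀ F (x⁻¹ γ x r^j) ≠ 0`, so
`x⁻¹ γ x r^j ∈ Out_S`; `r^j` is trivial at the finite places. -/
def SuppOutC558 : Prop :=
  ∀ r : G K, T5.IsRayGen r →
    ∀ (S : Finset (HeightOneSpectrum (𝓞 K)))
      (f₀ : ∀ v : HeightOneSpectrum (𝓞 K), GL (Fin 2) (v.adicCompletion K) → ℂ)
      (F : InfinitePlace K → GL (Fin 2) ℂ → ℂ) (γ : GL (Fin 2) K) (x : G K),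
      T5.twTerm r (T5.AdelicAut.id K) (pure305 S f₀ F) γ x ≠ 0 →
        OutT305 S (x⁻¹ * T5.ratG γ * x)

/-- **LEAF FD.5 = CUT-ON-OUT.**  For `x' ∈ Out_S`: `∫_{T_𝔸(γ)} β(t x') dμT(t) = 1` for the
product cut-off `β = prodCut305 S cT L`.
Proof.  `t x' ∈ Out_S ⟺ t ∈ Out_S`; the integral is the integral over `μT` restricted to
`Out_S` of a function of `compS305 S t`; `IsTorConst305` (the constant `cT` cancels);
`integral_prod_mul`, `integral_fintype_prod_eq_prod` (no integrability needed; the measures are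
σ-finite: `HaarSigmaC558`, to be used as a hypothesis); `IsLocCut305`, `IsCut305`. -/
def CutOnOutC558 : Prop :=
  (∀ (v : HeightOneSpectrum (𝓞 K)) (γ₀ : GL (Fin 2) (v.adicCompletion K))
      (μT : @Measure (T6.twCentSub (T6.glAut (RingEquiv.refl (v.adicCompletion K))) γ₀)
        (borel _)),
      @Measure.IsHaarMeasure _ _ _ (borel _) μT →
      @SigmaFinite _ (borel _) (@Measure.map _ _ (borel _) (borel _) Subtype.val μT)) →
  (∀ (γ₀ : GL (Fin 2) ℂ) (μT : @Measure (cent305 γ₀) (borel _)),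
      @Measure.IsHaarMeasure _ _ _ (borel _) μT →
      @SigmaFinite _ (borel _) (@Measure.map _ _ (borel _) (borel _) Subtype.val μT)) →
  CompContC558 K →
  ∀ (m : HeightOneSpectrum (𝓞 K) → ℕ) (S : Finset (HeightOneSpectrum (𝓞 K)))
    (γ : GL (Fin 2) K), T6.IsEll γ → GoodOut305 S γ →
  ∀ μT : @Measure (tA305 (T5.AdelicAut.id K) γ) (borel _),
    @Measure.IsHaarMeasure _ _ _ (borel _) μT →
  ∀ (L : LocData305 K γ) (cT : ℝ), IsLocData305 m L → 0 < cT → IsTorConst305 γ μT L cT →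
  ∀ x' : G K, OutT305 S x' →
    @integral _ _ _ _ (borel _) μT
      (fun t : tA305 (T5.AdelicAut.id K) γ => prodCut305 S cT L ((t : G K) * x')) = 1

/-- **LEAF FD.6 = RAY-FIN.**  The sum over the ray is finite, uniformly: there is a finite set
`J` of exponents such that for `j ∉ J` every `F w` vanishes on the conjugacy class of the
`w`-component of `γ r^j`.
Proof.  `det (z⁻¹ γ_w r_w^j z) = det γ_w · t^{2j}` with `t > 1` (`t^{2[K:ℚ]} = 2`); `det` maps
the compact support of `F w` onto a compact subset of `ℂ \ {0}`: `|det|` lies in `[a, b]`,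
`0 < a`; finitely many `j` for each `w`, finitely many `w`. -/
def RayFinC558 : Prop :=
  ∀ r : G K, T5.IsRayGen r →
    ∀ F : InfinitePlace K → GL (Fin 2) ℂ → ℂ,
      (∀ w : InfinitePlace K, Continuous (F w) ∧ HasCompactSupport (F w)) →
    ∀ γ : GL (Fin 2) K, ∃ J : Finset ℤ, ∀ j : ℤ, j ∉ J →
      ∀ (w : InfinitePlace K) (z : GL (Fin 2) ℂ),
        F w (z⁻¹ * infGL305 w (T5.ratG γ * r ^ j) * z) = 0

/-- **LEAF FD.7 = PT-FACT.**  For `y ∈ Out_S` and `γ` integral outside `S` the term `j` of the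
integrand is the product of the local terms.
Proof.  `(id).onG y = y`; `y⁻¹ γ y r^j ∈ Out_S` (`Out_S` is a group, `γ ∈ Out_S` by `InU 0`,
`r^j` trivial at the finite places); `finGL305 v`, `infGL305 w` are homomorphisms;
`finGL305 v (ratG γ) = locG305 v γ`, `finGL305 v (r^j) = 1`; `infGL305 w (r^j)` is a scalar
matrix. -/
def PtFactC558 : Prop :=
  ∀ r : G K, T5.IsRayGen r →
    ∀ (S : Finset (HeightOneSpectrum (𝓞 K)))
      (f₀ : ∀ v : HeightOneSpectrum (𝓞 K), GL (Fin 2) (v.adicCompletion K) → ℂ)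
      (F : InfinitePlace K → GL (Fin 2) ℂ → ℂ) (γ : GL (Fin 2) K), IntOut305 S γ →
    ∀ (y : G K) (j : ℤ), OutT305 S y →
      pure305 S f₀ F (y⁻¹ * T5.ratG γ * (T5.AdelicAut.id K).onG y * r ^ j)
        = (∏ v ∈ S, f₀ v ((finGL305 v y)⁻¹ * locG305 v γ * finGL305 v y)) *
          ∏ w : InfinitePlace K,
            F w ((infGL305 w y)⁻¹ * infGL305 w (T5.ratG γ * r ^ j) * infGL305 w y)

/-- **LEAF FD.9 = HAAR-SIGMA.**  The Haar measures of `GL₂(K_v)` and `GL₂(ℂ)` (Borel) are
σ-finite; the images in the group of the Haar measures of the centralisers are σ-finite.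
Proof.  `K_v` is locally compact and σ-compact (`⋃ ϖ⁻ⁿ 𝒪_v`, `𝒪_v` compact), so is `GL₂(K_v)`
(closed in `M₂ × M₂`); a Haar measure is finite on compact sets; a closed subgroup is σ-compact
and `(map val μT)(C) = μT(C ∩ T)`. -/
def HaarSigmaC558 : Prop :=
  (∀ (v : HeightOneSpectrum (𝓞 K))
      (μ : @Measure (GL (Fin 2) (v.adicCompletion K)) (borel _)),
      @Measure.IsHaarMeasure _ _ _ (borel _) μ → @SigmaFinite _ (borel _) μ) ∧
  (∀ μ : @Measure (GL (Fin 2) ℂ) (borel _),
      @Measure.IsHaarMeasure _ _ _ (borel _) μ → @SigmaFinite _ (borel _) μ) ∧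
  (∀ (v : HeightOneSpectrum (𝓞 K)) (γ₀ : GL (Fin 2) (v.adicCompletion K))
      (μT : @Measure (T6.twCentSub (T6.glAut (RingEquiv.refl (v.adicCompletion K))) γ₀)
        (borel _)),
      @Measure.IsHaarMeasure _ _ _ (borel _) μT →
      @SigmaFinite _ (borel _) (@Measure.map _ _ (borel _) (borel _) Subtype.val μT)) ∧
  ∀ (γ₀ : GL (Fin 2) ℂ) (μT : @Measure (cent305 γ₀) (borel _)),
      @Measure.IsHaarMeasure _ _ _ (borel _) μT →
      @SigmaFinite _ (borel _) (@Measure.map _ _ (borel _) (borel _) Subtype.val μT)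

/-- **ASSET LEAF FD.10 = BI-INV-CONT.**  A function on `GL₂(K_v)` which is bi-invariant under
`U(n)` is continuous.
Proof.  `U(n)` is an open neighbourhood of `1` (the entries of `g` and of `g⁻¹` are continuous,
closed balls of a valued field are open), `f (g u) = f g` for `u ∈ U(n)` (`1 ∈ U(n)`): `f` is
locally constant. -/
def BiInvContC558 : Prop :=
  ∀ (v : HeightOneSpectrum (𝓞 K)) (n : ℕ) (f : GL (Fin 2) (v.adicCompletion K) → ℂ),
    T6.IsBiInv (T6.InU n) f → Continuous f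

/-- **PART A = CUT-ON-DOWN (the cut-off part of `FactDownC305`).** -/
def CutOnDownC558 : Prop :=
  ∀ R : Frame5 K, IsFrame5 R →
    ∀ (m : HeightOneSpectrum (𝓞 K) → ℕ) (S : Finset (HeightOneSpectrum (𝓞 K)))
      (f₀ : ∀ v : HeightOneSpectrum (𝓞 K), GL (Fin 2) (v.adicCompletion K) → ℂ)
      (F : InfinitePlace K → GL (Fin 2) ℂ → ℂ),
    ∀ γ : GL (Fin 2) K, T6.IsEll γ → GoodOut305 S γ →
    ∀ μT : @Measure (tA305 (T5.AdelicAut.id K) γ) (borel _),
      @Measure.IsHaarMeasure _ _ _ (borel _) μT →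
    ∀ (L : LocData305 K γ) (cT : ℝ), IsLocData305 m L → 0 < cT → IsTorConst305 γ μT L cT →
      IsCutOn305 (T5.AdelicAut.id K) γ μT (prodCut305 S cT L)
        {x | T5.twTerm R.r (T5.AdelicAut.id K) (pure305 S f₀ F) γ x ≠ 0}

/-- **PART B = FACT-INT-DOWN (the integral part of `FactDownC305`).** -/
def FactIntDownC558 : Prop :=
  TotCplx K → ∀ R : Frame5 K, IsFrame5 R →
    ∀ μc : @Measure (GL (Fin 2) ℂ) (borel _), @Measure.IsHaarMeasure _ _ _ (borel _) μc →
    ∀ (T₀ : Finset (HeightOneSpectrum (𝓞 K))) (m : HeightOneSpectrum (𝓞 K) → ℕ),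
      (∀ v : HeightOneSpectrum (𝓞 K), v ∉ T₀ → m v = 0) →
    ∃ cG : ℝ, 0 < cG ∧
      ∀ S : Finset (HeightOneSpectrum (𝓞 K)), T₀ ⊆ S →
      ∀ (f₀ : ∀ v : HeightOneSpectrum (𝓞 K), GL (Fin 2) (v.adicCompletion K) → ℂ)
        (F : InfinitePlace K → GL (Fin 2) ℂ → ℂ),
        (∀ v ∈ S, T6.IsBiInv (T6.InU (m v)) (f₀ v) ∧ T6.HasFinSupp (T6.InU (m v)) (f₀ v)) →
        (∀ w : InfinitePlace K, Continuous (F w) ∧ HasCompactSupport (F w)) →
      ∀ γ : GL (Fin 2) K, T6.IsEll γ → GoodOut305 S γ →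
      ∀ μT : @Measure (tA305 (T5.AdelicAut.id K) γ) (borel _),
        @Measure.IsHaarMeasure _ _ _ (borel _) μT →
      ∀ (L : LocData305 K γ) (cT : ℝ), IsLocData305 m L → 0 < cT → IsTorConst305 γ μT L cT →
        cutInt305 R.r (T5.AdelicAut.id K) (pure305 S f₀ F) γ R.μ (prodCut305 S cT L)
          = ((cG / cT : ℝ) : ℂ) * factVal305 R.r S L f₀ μc F

end OneField

/-- **LEAF FD.8 = ARCH-INTBL (`GL₂(ℂ)` only).**  For `F` continuous with compact support, `γ₀`
regular, `z` central and a continuous cut-off function `β` for the centraliser of `γ₀`: the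
local integrand `y ↦ F(y⁻¹ γ₀ z y) β(y)` is integrable.
Proof.  `γ' = γ₀ z` is regular with the centraliser `T` of `γ₀`; its orbit is closed and
`{y : y⁻¹ γ' y ∈ supp F} ⊆ T C` with `C` compact (diagonalise `γ'`, Iwasawa:
`n⁻¹ diag(a, b) n` has the entry `(a - b) x`); `χ ∈ C_c`, `χ ≥ 0`, `χ ≥ 1` on `C`:
`m = inf_{c ∈ C} ∫_T χ(t c) dt > 0` and
`∫ 1_{TC} β dμ ≤ m⁻¹ ∫_G ∫_T χ(t y) β(y) dt dy = m⁻¹ ∫_G χ(y) ∫_T β(t⁻¹ y) dt dy = m⁻¹ ∫ χ`
(Tonelli, left invariance of `μ`, `T` commutative so `μT` is inversion invariant). -/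
def ArchIntblC558 : Prop :=
  ∀ μc : @Measure (GL (Fin 2) ℂ) (borel _), @Measure.IsHaarMeasure _ _ _ (borel _) μc →
    ∀ F : GL (Fin 2) ℂ → ℂ, Continuous F → HasCompactSupport F →
    ∀ γ₀ : GL (Fin 2) ℂ, T6.IsReg γ₀ →
    ∀ z : GL (Fin 2) ℂ, (∀ g : GL (Fin 2) ℂ, z * g = g * z) →
    ∀ μT : @Measure (cent305 γ₀) (borel _), @Measure.IsHaarMeasure _ _ _ (borel _) μT →
    ∀ β : GL (Fin 2) ℂ → ℝ, IsCut305 γ₀ μT β →
      @Integrable _ _ _ _ (borel _) (locFn558 β F (γ₀ * z)) μc

end Fermat.Agent.LT.T7.H558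

end
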