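import Mathlib
import Fermat.Agent.LT.T7.H558.FactDownSpec

/-!
# Row LT, tower T7, node C2.7.7 `FactDownC305` (helper558): the top of PART A (cut-off part)

OFF-MAIN.  Complete proof, nothing assumed.

    cutOnDownC_of558 : SuppDownC305 K → OutOpenC558 K → CompContC558 K → TorCommIdC558 K →
        SuppOutC558 K → HaarSigmaC558 K → CutOnOutC558 K → CutOnDownC558 K
-/

set_option autoImplicit false

open AutomorphicForm IsDedekindDomain NumberField MeasureTheory
open scoped ComplexConjugate

noncomputable section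

namespace Fermat.Agent.LT.T7.H558

open Fermat.Agent.LT.H556 Fermat.Agent.LT.H556.A0 Fermat.Agent.LT.T7 Fermat.Agent.LT.T7.H305

attribute [local instance] Fermat.Agent.LT.T5.instMeasurableSpaceG

variable {K : Type} [Field K] [NumberField K]

/-- The continuous factor of the product cut-off. -/
def prodCutCore558 (S : Finset (HeightOneSpectrum (𝓞 K))) (cT : ℝ) {γ : GL (Fin 2) K}
    (L : LocData305 K γ) (y : G K) : ℝ :=
  cT⁻¹ * (∏ v ∈ S, L.βv v (finGL305 v y)) * ∏ w : InfinitePlace K, L.βc w (infGL305 w y)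

theorem prodCut_eq_indicator558 (S : Finset (HeightOneSpectrum (𝓞 K))) (cT : ℝ)
    {γ : GL (Fin 2) K} (L : LocData305 K γ) :
    prodCut305 S cT L = Set.indicator {y : G K | OutT305 S y} (prodCutCore558 S cT L) := by
  classical
  funext y
  by_cases h : OutT305 S y
  · rw [Set.indicator_of_mem (show y ∈ {y : G K | OutT305 S y} from h)]
    change (if OutT305 S y then _ else _) = _
    rw [if_pos h]
    rfl
  · rw [Set.indicator_of_notMem (show y ∉ {y : G K | OutT305 S y} from h)]
    change (if OutT305 S y then _ else _) = _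
    rw [if_neg h]

theorem continuous_prodCutCore558 (hCont : CompContC558 K)
    (m : HeightOneSpectrum (𝓞 K) → ℕ) (S : Finset (HeightOneSpectrum (𝓞 K))) (cT : ℝ)
    {γ : GL (Fin 2) K} (L : LocData305 K γ) (hL : IsLocData305 m L) :
    Continuous (prodCutCore558 S cT L) := by
  unfold prodCutCore558
  refine (continuous_const.mul (continuous_finset_prod _ fun v _ => ?_)).mul
    (continuous_finset_prod _ fun w _ => ?_)
  · exact (hL.cut v).1.comp (hCont.1 v)
  · exact (hL.cutc w).1.comp (hCont.2 w)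

theorem prodCut_nonneg558 (m : HeightOneSpectrum (𝓞 K) → ℕ)
    (S : Finset (HeightOneSpectrum (𝓞 K))) (cT : ℝ) (hcT : 0 < cT)
    {γ : GL (Fin 2) K} (L : LocData305 K γ) (hL : IsLocData305 m L) (y : G K) :
    0 ≤ prodCut305 S cT L y := by
  classical
  rw [prodCut_eq_indicator558]
  refine Set.indicator_nonneg (fun y _ => ?_) y
  unfold prodCutCore558
  refine mul_nonneg (mul_nonneg (inv_nonneg.2 hcT.le) (Finset.prod_nonneg fun v _ => ?_))
    (Finset.prod_nonneg fun w _ => ?_)
  · exact (hL.cut v).2.1 _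
  · exact (hL.cutc w).2.1 _

/-- Right translation by an element of the (commutative) torus does not change the orbital
average. -/
theorem torus_transl558 (hComm : TorCommIdC558 K) (γ : GL (Fin 2) K) (hγ : T6.IsEll γ)
    (μT : @Measure (tA305 (T5.AdelicAut.id K) γ) (borel _))
    (hμT : @Measure.IsHaarMeasure _ _ _ (borel _) μT) (β : G K → ℝ) (t : G K)
    (ht : t ∈ tA305 (T5.AdelicAut.id K) γ) (x : G K) :
    @integral _ _ _ _ (borel _) μT
        (fun t₁ : tA305 (T5.AdelicAut.id K) γ => β ((t₁ : G K) * (t * x)))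
      = @integral _ _ _ _ (borel _) μT
        (fun t₁ : tA305 (T5.AdelicAut.id K) γ => β ((t₁ : G K) * x)) := by
  letI : MeasurableSpace (tA305 (T5.AdelicAut.id K) γ) := borel _
  haveI : BorelSpace (tA305 (T5.AdelicAut.id K) γ) := ⟨rfl⟩
  haveI := hμT
  have h := integral_mul_left_eq_self (μ := μT)
    (fun t₁ : tA305 (T5.AdelicAut.id K) γ => β ((t₁ : G K) * x))
    (⟨t, ht⟩ : tA305 (T5.AdelicAut.id K) γ)
  rw [← h]
  congr 1
  funext t₁
  have hc : (t₁ : G K) * t = t * (t₁ : G K) := hComm γ hγ _ t₁.2 _ ht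
  change β ((t₁ : G K) * (t * x)) = β ((t * (t₁ : G K)) * x)
  rw [← mul_assoc, hc]

/-- **THE TOP OF PART A.** -/
theorem cutOnDownC_of558 (hSD : SuppDownC305 K) (hOpen : OutOpenC558 K)
    (hCont : CompContC558 K) (hComm : TorCommIdC558 K) (hSO : SuppOutC558 K)
    (hσ : HaarSigmaC558 K) (hCut : CutOnOutC558 K) : CutOnDownC558 K := by
  intro R hR m S f₀ F γ hγ hgood μT hμT L cT hL hcT hT
  refine ⟨?_, prodCut_nonneg558 m S cT hcT L hL, ?_⟩
  · rw [prodCut_eq_indicator558]
    haveI : BorelSpace (G K) := ⟨rfl⟩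
    exact (continuous_prodCutCore558 hCont m S cT L hL).measurable.indicator
      (hOpen S).measurableSet
  · intro x hx
    have h1 : OutT305 S (x⁻¹ * T5.ratG γ * x) := hSO R.r hR.ray S f₀ F γ x hx
    obtain ⟨t, ht, hout⟩ := hSD γ S hgood x h1
    have hone := hCut hσ.2.2.1 hσ.2.2.2 hCont m S γ hγ hgood μT hμT L cT hL hcT hT
      (t⁻¹ * x) hout
    have htr := torus_transl558 hComm γ hγ μT hμT (prodCut305 S cT L) t ht (t⁻¹ * x)
    rw [mul_inv_cancel_left] at htr
    rw [htr]
    exact hone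

end Fermat.Agent.LT.T7.H558

end
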