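import Mathlib
import Fermat.Agent.LT.T7.H305.MatchSpec
import Fermat.Agent.LT.H415.AutVal

/-!
# Row LT, tower T7, asset leaf T7.L2.1.C2.0 `SigmaLocC305` (helper558): PROVED

OFF-MAIN.  No hole, nothing assumed.  ADDITIVE (new names only, suffix `558`).  v2 (16:40Z):
collision hygiene, the module declares no constant outside `Fermat.Agent.LT.T7.H558`.

    sigmaLocC558 : H305.SigmaLocC305 K

Spec: `T7/H305/MatchSpec.lean` (helper305, sha256 541c6ac7fb6d040e), byte-identical copy.
Input: the asset AUT-UNIQUE of helper415 (`LT/H415/{AutAbs, AutPlaces, AutSep, AutUnique,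
AutVal}.lean`, byte-identical copies of origin/helper17 = origin/helper415):
`finLocal415`, `infLocal415` (the local homomorphisms of a continuous injective
`σ`-semilinear ring endomorphism of the adele ring), `fin_transport415`, `inf_transport415`,
`valued_local415`.

Proof.
* Finite places: `sw` = the local homomorphism of `σ_𝔸` at `(w, w')`, its inverse = the local
  homomorphism of `σ_𝔸⁻¹` at `(w', w)` (the two compositions are the identity by transport,
  applied to the adele `sec z` with `w`-component `z`).
* Infinite places: `w₀ = w.comap σ`, `σ w₀ = w`, `(σ_𝔸 a)_w = ψ (a_{w₀})` with `ψ` continuous,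
  `ψ = σ` on `K`; the two continuous maps `ext_w ∘ ψ` and `ext_{w₀}` (resp. its conjugate) agree
  on the dense subfield `K` because `w.embedding ∘ σ` and `w₀.embedding` define the same place
  (`InfinitePlace.mk_eq_iff`).
-/

set_option autoImplicit false

open IsDedekindDomain NumberField Filter Topology
open scoped ComplexConjugate

noncomputable section

namespace Fermat.Agent.LT.T7.H558

open Fermat.Agent.LT.H556 Fermat.Agent.LT.H556.A0 Fermat.Agent.LT

variable {K : Type} [Field K] [NumberField K]

/-- The ring homomorphism of `σ_𝔸`. -/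
abbrev tauOf558 (s : T5.AdelicAut K) : AdeleRing (𝓞 K) K →+* AdeleRing (𝓞 K) K :=
  (s.σA : Adl K →+* Adl K)

/-- The ring homomorphism of `σ_𝔸⁻¹`. -/
abbrev tauInv558 (s : T5.AdelicAut K) : AdeleRing (𝓞 K) K →+* AdeleRing (𝓞 K) K :=
  (s.σA.symm : Adl K →+* Adl K)

theorem tauOf_compat558 (s : T5.AdelicAut K) (x : K) :
    tauOf558 s (algebraMap K (AdeleRing (𝓞 K) K) x)
      = algebraMap K (AdeleRing (𝓞 K) K) (s.σ x) := s.compat x

theorem tauInv_compat558 (s : T5.AdelicAut K) (x : K) :
    tauInv558 s (algebraMap K (AdeleRing (𝓞 K) K) x)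
      = algebraMap K (AdeleRing (𝓞 K) K) (s.σ.symm x) := by
  change s.σA.symm _ = _
  rw [RingEquiv.symm_apply_eq, s.compat, RingEquiv.apply_symm_apply]

theorem continuous_tauOf558 (s : T5.AdelicAut K) : Continuous (tauOf558 s) := s.continuous_σA

theorem continuous_tauInv558 (s : T5.AdelicAut K) : Continuous (tauInv558 s) :=
  s.continuous_symm

theorem injective_tauOf558 (s : T5.AdelicAut K) : Function.Injective (tauOf558 s) :=
  s.σA.injective

theorem injective_tauInv558 (s : T5.AdelicAut K) : Function.Injective (tauInv558 s) :=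
  s.σA.symm.injective

/-! ## Finite places -/

theorem sigmaLoc_fin558 (s : T5.AdelicAut K) (w w' : HeightOneSpectrum (𝓞 K))
    (h : T5.PlaceRel s w w') :
    ∃ sw : w.adicCompletion K ≃+* w'.adicCompletion K,
      (∀ x : K, sw (algebraMap K (w.adicCompletion K) x)
          = algebraMap K (w'.adicCompletion K) (s.σ x)) ∧
      (∀ x : w.adicCompletion K, Valued.v (sw x) = Valued.v x) ∧
      ∀ a : Adl K, T5.finHom w' (s.σA a) = sw (T5.finHom w a) := by
  have hv : H415.FinRel K s.σ w w' := h
  have hv' : H415.FinRel K s.σ.symm w' w := H415.finRel_symm415 s.σ w w' hv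
  have t1 : ∀ a : AdeleRing (𝓞 K) K, (s.σA a).2 w'
      = H415.finLocal415 s.σ (tauOf558 s) (continuous_tauOf558 s) (tauOf_compat558 s)
          (injective_tauOf558 s) w w' hv (a.2 w) := fun a =>
    H415.fin_transport415 s.σ (tauOf558 s) (continuous_tauOf558 s) (tauOf_compat558 s)
      (injective_tauOf558 s) w w' hv a
  have t2 : ∀ a : AdeleRing (𝓞 K) K, (s.σA.symm a).2 w
      = H415.finLocal415 s.σ.symm (tauInv558 s) (continuous_tauInv558 s) (tauInv_compat558 s)
          (injective_tauInv558 s) w' w hv' (a.2 w') := fun a =>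
    H415.fin_transport415 s.σ.symm (tauInv558 s) (continuous_tauInv558 s) (tauInv_compat558 s)
      (injective_tauInv558 s) w' w hv' a
  have l1 : ∀ z : w.adicCompletion K,
      H415.finLocal415 s.σ.symm (tauInv558 s) (continuous_tauInv558 s) (tauInv_compat558 s)
          (injective_tauInv558 s) w' w hv'
        (H415.finLocal415 s.σ (tauOf558 s) (continuous_tauOf558 s) (tauOf_compat558 s)
          (injective_tauOf558 s) w w' hv z) = z := by
    intro z
    have hz : ((H415.finPlace K w).sec z).2 w = z := (H415.finPlace K w).pr_sec z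
    rw [← hz, ← t1, ← t2, RingEquiv.symm_apply_apply]
  have l2 : ∀ z : w'.adicCompletion K,
      H415.finLocal415 s.σ (tauOf558 s) (continuous_tauOf558 s) (tauOf_compat558 s)
          (injective_tauOf558 s) w w' hv
        (H415.finLocal415 s.σ.symm (tauInv558 s) (continuous_tauInv558 s) (tauInv_compat558 s)
          (injective_tauInv558 s) w' w hv' z) = z := by
    intro z
    have hz : ((H415.finPlace K w').sec z).2 w' = z := (H415.finPlace K w').pr_sec z
    rw [← hz, ← t2, ← t1, RingEquiv.apply_symm_apply]
  refine ⟨RingEquiv.ofRingHom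
    (H415.finLocal415 s.σ (tauOf558 s) (continuous_tauOf558 s) (tauOf_compat558 s)
      (injective_tauOf558 s) w w' hv)
    (H415.finLocal415 s.σ.symm (tauInv558 s) (continuous_tauInv558 s) (tauInv_compat558 s)
      (injective_tauInv558 s) w' w hv') (RingHom.ext l2) (RingHom.ext l1), ?_, ?_, ?_⟩
  · intro x
    exact H415.finLocal415_coe s.σ (tauOf558 s) (continuous_tauOf558 s) (tauOf_compat558 s)
      (injective_tauOf558 s) w w' hv x
  · intro x
    exact H415.valued_local415 s.σ w w' hv _
      (H415.continuous_finLocal415 s.σ (tauOf558 s) (continuous_tauOf558 s) (tauOf_compat558 s)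
        (injective_tauOf558 s) w w' hv)
      (H415.finLocal415_coe s.σ (tauOf558 s) (continuous_tauOf558 s) (tauOf_compat558 s)
        (injective_tauOf558 s) w w' hv) x
  · intro a
    exact t1 a

/-! ## Infinite places -/

theorem infImage_comap558 (σ : K ≃+* K) (w : InfinitePlace K) :
    H415.infImage K σ (w.comap (σ : K →+* K)) = w := by
  refine InfinitePlace.ext _ _ fun x => ?_
  have h1 := H415.infImage_apply σ (w.comap (σ : K →+* K)) (σ.symm x)
  rw [RingEquiv.apply_symm_apply] at h1
  rw [h1, InfinitePlace.comap_apply]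
  simp

theorem ext_coe558 (w : InfinitePlace K) (x : K) :
    InfinitePlace.Completion.extensionEmbedding w
        ((algebraMap K (AdeleRing (𝓞 K) K) x).1 w) = w.embedding x := by
  have := InfinitePlace.Completion.extensionEmbedding_coe (v := w) ((WithAbs.equiv w.1).symm x)
  simpa using this

theorem embedding_comap558 (σ : K ≃+* K) (w₀ : InfinitePlace K) :
    ((H415.infImage K σ w₀).embedding.comp (σ : K →+* K) = w₀.embedding) ∨
      (ComplexEmbedding.conjugate ((H415.infImage K σ w₀).embedding.comp (σ : K →+* K))
        = w₀.embedding) := by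
  have h : InfinitePlace.mk ((H415.infImage K σ w₀).embedding.comp (σ : K →+* K))
      = InfinitePlace.mk w₀.embedding := by
    rw [InfinitePlace.mk_embedding, ← InfinitePlace.comap_mk, InfinitePlace.mk_embedding]
    refine InfinitePlace.ext _ _ fun x => ?_
    rw [InfinitePlace.comap_apply]
    exact H415.infImage_apply σ w₀ x
  exact InfinitePlace.mk_eq_iff.1 h

/-- Two continuous maps which agree on the dense subfield `K`: direct case. -/
theorem ext_comp_eq558 (σ : K ≃+* K) (w₀ w₁ : InfinitePlace K)
    (ψ : w₀.Completion →+* w₁.Completion) (hψc : Continuous ψ)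
    (hcoe : ∀ x : K, ψ ((algebraMap K (AdeleRing (𝓞 K) K) x).1 w₀)
      = (algebraMap K (AdeleRing (𝓞 K) K) (σ x)).1 w₁)
    (he : w₁.embedding.comp (σ : K →+* K) = w₀.embedding) (z : w₀.Completion) :
    InfinitePlace.Completion.extensionEmbedding w₁ (ψ z)
      = InfinitePlace.Completion.extensionEmbedding w₀ z := by
  have hd : DenseRange (fun x : K => (algebraMap K (AdeleRing (𝓞 K) K) x).1 w₀) :=
    H415.denseRange_inf415 w₀
  have hc1 : Continuous (fun z : w₀.Completion =>
      InfinitePlace.Completion.extensionEmbedding w₁ (ψ z)) :=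
    (InfinitePlace.Completion.isometry_extensionEmbedding w₁).continuous.comp hψc
  have hc0 : Continuous (fun z : w₀.Completion =>
      InfinitePlace.Completion.extensionEmbedding w₀ z) :=
    (InfinitePlace.Completion.isometry_extensionEmbedding w₀).continuous
  have key : (fun z : w₀.Completion => InfinitePlace.Completion.extensionEmbedding w₁ (ψ z))
      = fun z : w₀.Completion => InfinitePlace.Completion.extensionEmbedding w₀ z := by
    refine hd.equalizer hc1 hc0 ?_
    funext x
    change InfinitePlace.Completion.extensionEmbedding w₁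
        (ψ ((algebraMap K (AdeleRing (𝓞 K) K) x).1 w₀))
      = InfinitePlace.Completion.extensionEmbedding w₀
        ((algebraMap K (AdeleRing (𝓞 K) K) x).1 w₀)
    rw [hcoe, ext_coe558, ext_coe558, ← he]
    rfl
  exact congrFun key z

/-- Two continuous maps which agree on the dense subfield `K`: conjugate case. -/
theorem ext_comp_conj558 (σ : K ≃+* K) (w₀ w₁ : InfinitePlace K)
    (ψ : w₀.Completion →+* w₁.Completion) (hψc : Continuous ψ)
    (hcoe : ∀ x : K, ψ ((algebraMap K (AdeleRing (𝓞 K) K) x).1 w₀)
      = (algebraMap K (AdeleRing (𝓞 K) K) (σ x)).1 w₁)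
    (he : ComplexEmbedding.conjugate (w₁.embedding.comp (σ : K →+* K)) = w₀.embedding)
    (z : w₀.Completion) :
    InfinitePlace.Completion.extensionEmbedding w₁ (ψ z)
      = conj (InfinitePlace.Completion.extensionEmbedding w₀ z) := by
  have hd : DenseRange (fun x : K => (algebraMap K (AdeleRing (𝓞 K) K) x).1 w₀) :=
    H415.denseRange_inf415 w₀
  have hc1 : Continuous (fun z : w₀.Completion =>
      InfinitePlace.Completion.extensionEmbedding w₁ (ψ z)) :=
    (InfinitePlace.Completion.isometry_extensionEmbedding w₁).continuous.comp hψc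
  have hc0 : Continuous (fun z : w₀.Completion =>
      conj (InfinitePlace.Completion.extensionEmbedding w₀ z)) :=
    Complex.continuous_conj.comp
      (InfinitePlace.Completion.isometry_extensionEmbedding w₀).continuous
  have key : (fun z : w₀.Completion => InfinitePlace.Completion.extensionEmbedding w₁ (ψ z))
      = fun z : w₀.Completion =>
          conj (InfinitePlace.Completion.extensionEmbedding w₀ z) := by
    refine hd.equalizer hc1 hc0 ?_
    funext x
    change InfinitePlace.Completion.extensionEmbedding w₁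
        (ψ ((algebraMap K (AdeleRing (𝓞 K) K) x).1 w₀))
      = conj (InfinitePlace.Completion.extensionEmbedding w₀
        ((algebraMap K (AdeleRing (𝓞 K) K) x).1 w₀))
    rw [hcoe, ext_coe558, ext_coe558, ← he]
    change w₁.embedding (σ x) = conj (conj (w₁.embedding (σ x)))
    exact (Complex.conj_conj _).symm
  exact congrFun key z

theorem sigmaLoc_inf_core558 (s : T5.AdelicAut K) (w₀ : InfinitePlace K) :
    (∀ a : Adl K, T5.infHom (H415.infImage K s.σ w₀) (s.σA a) = T5.infHom w₀ a) ∨
      ∀ a : Adl K, T5.infHom (H415.infImage K s.σ w₀) (s.σA a) = conj (T5.infHom w₀ a) := by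
  have hψc := H415.continuous_infLocal415 s.σ (tauOf558 s) (continuous_tauOf558 s)
    (tauOf_compat558 s) (injective_tauOf558 s) w₀
  have t : ∀ a : AdeleRing (𝓞 K) K, (s.σA a).1 (H415.infImage K s.σ w₀)
      = H415.infLocal415 s.σ (tauOf558 s) (continuous_tauOf558 s) (tauOf_compat558 s)
          (injective_tauOf558 s) w₀ (a.1 w₀) := fun a =>
    H415.inf_transport415 s.σ (tauOf558 s) (continuous_tauOf558 s) (tauOf_compat558 s)
      (injective_tauOf558 s) w₀ a
  have hcoe : ∀ x : K,
      H415.infLocal415 s.σ (tauOf558 s) (continuous_tauOf558 s) (tauOf_compat558 s)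
          (injective_tauOf558 s) w₀ ((algebraMap K (AdeleRing (𝓞 K) K) x).1 w₀)
        = (algebraMap K (AdeleRing (𝓞 K) K) (s.σ x)).1 (H415.infImage K s.σ w₀) := fun x =>
    H415.infLocal415_coe s.σ (tauOf558 s) (continuous_tauOf558 s) (tauOf_compat558 s)
      (injective_tauOf558 s) w₀ x
  rcases embedding_comap558 s.σ w₀ with he | he
  · left
    intro a
    change InfinitePlace.Completion.extensionEmbedding (H415.infImage K s.σ w₀)
      ((s.σA a).1 (H415.infImage K s.σ w₀))
        = InfinitePlace.Completion.extensionEmbedding w₀ (a.1 w₀)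
    exact (congrArg _ (t a)).trans
      (ext_comp_eq558 s.σ w₀ (H415.infImage K s.σ w₀) _ hψc hcoe he (a.1 w₀))
  · right
    intro a
    change InfinitePlace.Completion.extensionEmbedding (H415.infImage K s.σ w₀)
      ((s.σA a).1 (H415.infImage K s.σ w₀))
        = conj (InfinitePlace.Completion.extensionEmbedding w₀ (a.1 w₀))
    exact (congrArg _ (t a)).trans
      (ext_comp_conj558 s.σ w₀ (H415.infImage K s.σ w₀) _ hψc hcoe he (a.1 w₀))

/-! ## The leaf -/

/-- **LEAF T7.L2.1.C2.0 = SIGMA-LOC, PROVED.** -/
theorem sigmaLocC558 : H305.SigmaLocC305 K := by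
  intro s
  refine ⟨fun w w' h => sigmaLoc_fin558 s w w' h, fun w => ?_⟩
  have h := sigmaLoc_inf_core558 s (w.comap (s.σ : K →+* K))
  rw [infImage_comap558] at h
  exact h

end Fermat.Agent.LT.T7.H558
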