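import Mathlib
import Fermat.Agent.LT.T7.H558.FactDownTopA

/-!
# Row LT, tower T7, node C2.7.7 `FactDownC305` (helper558): the top of PART B (integral part)

OFF-MAIN.  Complete proof, nothing assumed.

    factIntDownC_of558 : HaarSplitC305 K → OutOpenC558 K → CompContC558 K → BiInvContC558 K →
        RayFinC558 K → PtFactC558 K → ArchIntblC558 → HaarSigmaC558 K → FactIntDownC558 K
    factDownC_of558 : the node `FactDownC305 K` from the leaves
-/

set_option autoImplicit false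

open AutomorphicForm IsDedekindDomain NumberField MeasureTheory
open scoped ComplexConjugate

noncomputable section

namespace Fermat.Agent.LT.T7.H558

open Fermat.Agent.LT.H556 Fermat.Agent.LT.H556.A0 Fermat.Agent.LT.T7 Fermat.Agent.LT.T7.H305

attribute [local instance] Fermat.Agent.LT.T5.instMeasurableSpaceG

variable {K : Type} [Field K] [NumberField K]

/-! ## Small lemmas -/

/-- The discriminant commutes with ring homomorphisms. -/
theorem disc_map558 {R R' : Type} [CommRing R] [CommRing R'] (f : R →+* R')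
    (γ : GL (Fin 2) R) :
    T6.disc (Matrix.GeneralLinearGroup.map f γ) = f (T6.disc γ) := by
  have h1 : ((Matrix.GeneralLinearGroup.map f γ : GL (Fin 2) R') : Matrix (Fin 2) (Fin 2) R')
      = (γ : Matrix (Fin 2) (Fin 2) R).map f := rfl
  change ((Matrix.GeneralLinearGroup.map f γ : GL (Fin 2) R') :
      Matrix (Fin 2) (Fin 2) R').trace ^ 2
    - 4 * ((Matrix.GeneralLinearGroup.map f γ : GL (Fin 2) R') :
      Matrix (Fin 2) (Fin 2) R').det
    = f ((γ : Matrix (Fin 2) (Fin 2) R).trace ^ 2 - 4 * (γ : Matrix (Fin 2) (Fin 2) R).det)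
  rw [h1]
  have h2 : ((γ : Matrix (Fin 2) (Fin 2) R).map f).trace
      = f (γ : Matrix (Fin 2) (Fin 2) R).trace := by
    simp [Matrix.trace, Matrix.diag]
  have h3 : ((γ : Matrix (Fin 2) (Fin 2) R).map f).det
      = f (γ : Matrix (Fin 2) (Fin 2) R).det := by
    simp [Matrix.det_fin_two]
  rw [h2, h3, map_sub, map_pow, map_mul]
  congr 2
  exact (map_ofNat f 4).symm

/-- The archimedean component of an elliptic element is regular. -/
theorem isReg_arch558 (w : InfinitePlace K) (γ : GL (Fin 2) K) (hγ : T6.IsEll γ) :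
    T6.IsReg (archG305 w γ) := by
  have h : archG305 w γ
      = Matrix.GeneralLinearGroup.map ((T5.infHom w).comp (algebraMap K (Adl K))) γ := rfl
  change IsUnit (T6.disc (archG305 w γ))
  rw [h, disc_map558]
  exact (show IsUnit (T6.disc γ) from hγ.1).map _

/-- The archimedean components of the powers of the ray generator are central. -/
theorem ray_central558 (r : G K) (hr : T5.IsRayGen r) (w : InfinitePlace K) (j : ℤ)
    (g : GL (Fin 2) ℂ) : infGL305 w (r ^ j) * g = g * infGL305 w (r ^ j) := by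
  obtain ⟨_, t, _, _, ht⟩ := hr
  have h1 : ((infGL305 w r : GL (Fin 2) ℂ) : Matrix (Fin 2) (Fin 2) ℂ)
      = Matrix.diagonal (fun _ => (t : ℂ)) := ht w
  have hc : Commute (infGL305 w r) g := by
    apply Units.ext
    change ((infGL305 w r : GL (Fin 2) ℂ) : Matrix (Fin 2) (Fin 2) ℂ)
        * (g : Matrix (Fin 2) (Fin 2) ℂ)
      = (g : Matrix (Fin 2) (Fin 2) ℂ)
        * ((infGL305 w r : GL (Fin 2) ℂ) : Matrix (Fin 2) (Fin 2) ℂ)
    rw [h1]
    ext a b
    rw [Matrix.diagonal_mul, Matrix.mul_diagonal, mul_comm]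
  rw [map_zpow]
  exact (hc.zpow_left j).eq

/-! ## The integrand -/

/-- The function on the product of the local groups whose pull-back is the integrand. -/
def prodFn558 (S : Finset (HeightOneSpectrum (𝓞 K))) (cT : ℝ) {γ : GL (Fin 2) K}
    (L : LocData305 K γ)
    (f₀ : ∀ v : HeightOneSpectrum (𝓞 K), GL (Fin 2) (v.adicCompletion K) → ℂ)
    (F : InfinitePlace K → GL (Fin 2) ℂ → ℂ) (r : G K) (J : Finset ℤ)
    (p : (∀ v : S, GL (Fin 2) ((v : HeightOneSpectrum (𝓞 K)).adicCompletion K)) ×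
      (InfinitePlace K → GL (Fin 2) ℂ)) : ℂ :=
  (((cT⁻¹ : ℝ) : ℂ) * ∏ v : S, locFn558 (L.βv v.1) (f₀ v.1) (locG305 v.1 γ) (p.1 v)) *
    ∑ j ∈ J, ∏ w : InfinitePlace K,
      locFn558 (L.βc w) (F w) (infGL305 w (T5.ratG γ * r ^ j)) (p.2 w)

/-- **The integrand is the pull-back of `prodFn558`, cut off by `Out_S`.** -/
theorem integrand_eq558 (hPF : PtFactC558 K) (r : G K) (hr : T5.IsRayGen r)
    (S : Finset (HeightOneSpectrum (𝓞 K)))
    (f₀ : ∀ v : HeightOneSpectrum (𝓞 K), GL (Fin 2) (v.adicCompletion K) → ℂ)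
    (F : InfinitePlace K → GL (Fin 2) ℂ → ℂ) (γ : GL (Fin 2) K) (hint : IntOut305 S γ)
    (cT : ℝ) (L : LocData305 K γ) (J : Finset ℤ)
    (hJ : ∀ j : ℤ, j ∉ J → ∀ (w : InfinitePlace K) (z : GL (Fin 2) ℂ),
      F w (z⁻¹ * infGL305 w (T5.ratG γ * r ^ j) * z) = 0) (y : G K) :
    T5.twTerm r (T5.AdelicAut.id K) (pure305 S f₀ F) γ y * ((prodCut305 S cT L y : ℝ) : ℂ)
      = Set.indicator {y : G K | OutT305 S y}
          (fun y => prodFn558 S cT L f₀ F r J (compS305 S y)) y := by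
  classical
  by_cases h : OutT305 S y
  · rw [Set.indicator_of_mem (show y ∈ {y : G K | OutT305 S y} from h)]
    have hterm : ∀ j : ℤ,
        pure305 S f₀ F (y⁻¹ * T5.ratG γ * (T5.AdelicAut.id K).onG y * r ^ j)
          = (∏ v ∈ S, f₀ v ((finGL305 v y)⁻¹ * locG305 v γ * finGL305 v y)) *
            ∏ w : InfinitePlace K,
              F w ((infGL305 w y)⁻¹ * infGL305 w (T5.ratG γ * r ^ j) * infGL305 w y) :=
      fun j => hPF r hr S f₀ F γ hint y j h
    have hts : T5.twTerm r (T5.AdelicAut.id K) (pure305 S f₀ F) γ y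
        = ∑ j ∈ J, (∏ v ∈ S, f₀ v ((finGL305 v y)⁻¹ * locG305 v γ * finGL305 v y)) *
            ∏ w : InfinitePlace K,
              F w ((infGL305 w y)⁻¹ * infGL305 w (T5.ratG γ * r ^ j) * infGL305 w y) := by
      change (∑' j : ℤ,
        pure305 S f₀ F (y⁻¹ * T5.ratG γ * (T5.AdelicAut.id K).onG y * r ^ j)) = _
      rw [tsum_eq_sum (s := J)]
      · exact Finset.sum_congr rfl fun j _ => hterm j
      · intro j hj
        rw [hterm j]
        obtain ⟨w₀⟩ := (inferInstance : Nonempty (InfinitePlace K))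
        rw [Finset.prod_eq_zero (Finset.mem_univ w₀) (hJ j hj w₀ _), mul_zero]
    have hcut : prodCut305 S cT L y
        = cT⁻¹ * (∏ v ∈ S, L.βv v (finGL305 v y)) *
          ∏ w : InfinitePlace K, L.βc w (infGL305 w y) := by
      change (if OutT305 S y then _ else _) = _
      rw [if_pos h]
    rw [hts, hcut]
    change _ = (((cT⁻¹ : ℝ) : ℂ) * ∏ v : S, (f₀ v.1 ((finGL305 v.1 y)⁻¹ * locG305 v.1 γ
        * finGL305 v.1 y) * ((L.βv v.1 (finGL305 v.1 y) : ℝ) : ℂ))) *
      ∑ j ∈ J, ∏ w : InfinitePlace K,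
        (F w ((infGL305 w y)⁻¹ * infGL305 w (T5.ratG γ * r ^ j) * infGL305 w y)
          * ((L.βc w (infGL305 w y) : ℝ) : ℂ))
    rw [Finset.prod_coe_sort S (fun v => f₀ v ((finGL305 v y)⁻¹ * locG305 v γ
        * finGL305 v y) * ((L.βv v (finGL305 v y) : ℝ) : ℂ))]
    rw [Finset.prod_mul_distrib]
    simp only [Finset.prod_mul_distrib]
    rw [← Finset.mul_sum, ← Finset.sum_mul]
    push_cast
    ring
  · rw [Set.indicator_of_notMem (show y ∉ {y : G K | OutT305 S y} from h)]
    have hcut : prodCut305 S cT L y = 0 := by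
      change (if OutT305 S y then _ else _) = _
      rw [if_neg h]
    rw [hcut]
    simp

/-! ## Measure theory on the product of the local groups (Mathlib only) -/

/-- Fubini for a product of functions of the coordinates, times a finite sum of such products:
no integrability is needed for the first factor. -/
theorem integral_prod_sum558 {ι κ : Type} [Fintype ι] [Fintype κ] {E : ι → Type} {H : Type}
    [∀ i, MeasurableSpace (E i)] [MeasurableSpace H]
    (μ : ∀ i, Measure (E i)) [∀ i, SigmaFinite (μ i)] (ν : Measure H) [SigmaFinite ν]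
    (c : ℂ) (g : ∀ i, E i → ℂ) (J : Finset ℤ) (h : κ → ℤ → H → ℂ)
    (hint : ∀ j ∈ J, ∀ w, Integrable (h w j) ν) :
    ∫ p : (∀ i, E i) × (κ → H), (c * ∏ i, g i (p.1 i)) * ∑ j ∈ J, ∏ w, h w j (p.2 w)
        ∂((Measure.pi μ).prod (Measure.pi fun _ : κ => ν))
      = (c * ∏ i, ∫ x, g i x ∂μ i) * ∑ j ∈ J, ∏ w, ∫ x, h w j x ∂ν := by
  rw [integral_prod_mul (μ := Measure.pi μ) (ν := Measure.pi fun _ : κ => ν)
    (fun a : ∀ i, E i => c * ∏ i, g i (a i)) (fun b : κ → H => ∑ j ∈ J, ∏ w, h w j (b w))]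
  congr 1
  · rw [integral_const_mul, integral_fintype_prod_eq_prod]
  · rw [integral_finset_sum]
    · refine Finset.sum_congr rfl fun j _ => ?_
      exact integral_fintype_prod_eq_prod (μ := fun _ : κ => ν) (fun w => h w j)
    · intro j hj
      exact Integrable.fintype_prod (μ := fun _ : κ => ν) (f := fun w => h w j)
        (fun w => hint j hj w)

/-- The local integrand is continuous if its two factors are. -/
theorem continuous_locFn558 {H : Type} [Group H] [TopologicalSpace H] [IsTopologicalGroup H]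
    (β : H → ℝ) (f : H → ℂ) (γ : H) (hβ : Continuous β) (hf : Continuous f) :
    Continuous (locFn558 β f γ) := by
  change Continuous fun y : H => f (y⁻¹ * γ * y) * ((β y : ℝ) : ℂ)
  exact (hf.comp ((continuous_inv.mul continuous_const).mul continuous_id)).mul
    (Complex.continuous_ofReal.comp hβ)

/-! ## The top of part B -/

/-- **THE TOP OF PART B.** -/
theorem factIntDownC_of558 (hHS : HaarSplitC305 K) (hOpen : OutOpenC558 K)
    (hCont : CompContC558 K) (hBI : BiInvContC558 K) (hRF : RayFinC558 K)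
    (hPF : PtFactC558 K) (hAI : ArchIntblC558) (hσ : HaarSigmaC558 K) :
    FactIntDownC558 K := by
  intro hK R hR μc hμc T₀ m hm
  obtain ⟨c, hc, hsplit⟩ := hHS hK R.μ hR.frame.haar μc hμc T₀ m hm
  refine ⟨c, hc, ?_⟩
  intro S hS f₀ F hf₀ hF γ hγ hgood μT hμT L cT hL hcT hT
  classical
  letI iv : ∀ v : HeightOneSpectrum (𝓞 K),
      MeasurableSpace (GL (Fin 2) (v.adicCompletion K)) := fun _ => borel _
  letI ic : MeasurableSpace (GL (Fin 2) ℂ) := borel _
  haveI : ∀ v : HeightOneSpectrum (𝓞 K), BorelSpace (GL (Fin 2) (v.adicCompletion K)) :=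
    fun _ => ⟨rfl⟩
  haveI : BorelSpace (GL (Fin 2) ℂ) := ⟨rfl⟩
  haveI : BorelSpace (G K) := ⟨rfl⟩
  have hr : T5.IsRayGen R.r := hR.ray
  obtain ⟨J, hJ⟩ := hRF R.r hr F hF γ
  have hint : IntOut305 S γ := fun v hv => (hgood v hv).1
  have hsp := hsplit S hS L.μv hL.haar
  haveI hσv : ∀ v : S, SigmaFinite (L.μv v.1) := fun v => hσ.1 v.1 (L.μv v.1) (hL.haar v.1).1
  haveI hσc : SigmaFinite μc := hσ.2.1 μc hμc
  -- the integrand
  have h1 : cutInt305 R.r (T5.AdelicAut.id K) (pure305 S f₀ F) γ R.μ (prodCut305 S cT L)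
      = ∫ y, (Set.indicator {y : G K | OutT305 S y}
          (fun y => prodFn558 S cT L f₀ F R.r J (compS305 S y)) y) ∂(R.μ) := by
    change (∫ y, (T5.twTerm R.r (T5.AdelicAut.id K) (pure305 S f₀ F) γ y
      * ((prodCut305 S cT L y : ℝ) : ℂ)) ∂(R.μ)) = _
    exact integral_congr_ae (Filter.Eventually.of_forall
      (integrand_eq558 hPF R.r hr S f₀ F γ hint cT L J hJ))
  -- measurability
  have hcomp : Measurable (compS305 (K := K) S) := by
    change Measurable fun y : G K =>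
      ((fun v : S => finGL305 v.1 y), (fun w : InfinitePlace K => infGL305 w y))
    exact Measurable.prodMk (measurable_pi_lambda _ fun v => (hCont.1 v.1).measurable)
      (measurable_pi_lambda _ fun w => (hCont.2 w).measurable)
  have hgv : ∀ v : S, Measurable (locFn558 (L.βv v.1) (f₀ v.1) (locG305 v.1 γ)) := fun v =>
    (continuous_locFn558 _ _ _ (hL.cut v.1).1 (hBI v.1 (m v.1) (f₀ v.1) (hf₀ v.1 v.2).1)).measurable
  have hhw : ∀ (w : InfinitePlace K) (j : ℤ),
      Measurable (locFn558 (L.βc w) (F w) (infGL305 w (T5.ratG γ * R.r ^ j))) := fun w j =>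
    (continuous_locFn558 _ _ _ (hL.cutc w).1 (hF w).1).measurable
  have hΦ : Measurable (prodFn558 S cT L f₀ F R.r J) := by
    change Measurable fun p : (∀ v : S, GL (Fin 2)
        ((v : HeightOneSpectrum (𝓞 K)).adicCompletion K)) × (InfinitePlace K → GL (Fin 2) ℂ) =>
      (((cT⁻¹ : ℝ) : ℂ) * ∏ v : S, locFn558 (L.βv v.1) (f₀ v.1) (locG305 v.1 γ) (p.1 v)) *
        ∑ j ∈ J, ∏ w : InfinitePlace K,
          locFn558 (L.βc w) (F w) (infGL305 w (T5.ratG γ * R.r ^ j)) (p.2 w)
    refine Measurable.mul (Measurable.const_mul (Finset.measurable_prod _ fun v _ => ?_) _)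
      (Finset.measurable_sum _ fun j _ => Finset.measurable_prod _ fun w _ => ?_)
    · exact (hgv v).comp ((measurable_pi_apply v).comp measurable_fst)
    · exact (hhw w j).comp ((measurable_pi_apply w).comp measurable_snd)
  -- integrability at the infinite places
  have hintbl : ∀ j ∈ J, ∀ w : InfinitePlace K,
      Integrable (locFn558 (L.βc w) (F w) (infGL305 w (T5.ratG γ * R.r ^ j))) μc := by
    intro j _ w
    have h := hAI μc hμc (F w) (hF w).1 (hF w).2 (archG305 w γ) (isReg_arch558 w γ hγ)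
      (infGL305 w (R.r ^ j)) (fun g => ray_central558 R.r hr w j g) (L.μtc w) (hL.torc w)
      (L.βc w) (hL.cutc w)
    have he : infGL305 w (T5.ratG γ * R.r ^ j) = archG305 w γ * infGL305 w (R.r ^ j) :=
      map_mul _ _ _
    rw [he]
    exact h
  -- the computation
  rw [h1, integral_indicator (hOpen S).measurableSet,
    ← integral_map hcomp.aemeasurable hΦ.aestronglyMeasurable, hsp, integral_smul_measure,
    ENNReal.toReal_ofReal hc.le]
  have h2 := integral_prod_sum558 (fun v : S => L.μv v.1) μc ((cT⁻¹ : ℝ) : ℂ)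
    (fun v : S => locFn558 (L.βv v.1) (f₀ v.1) (locG305 v.1 γ)) J
    (fun (w : InfinitePlace K) (j : ℤ) =>
      locFn558 (L.βc w) (F w) (infGL305 w (T5.ratG γ * R.r ^ j))) hintbl
  change c • (∫ p : (∀ v : S, GL (Fin 2)
        ((v : HeightOneSpectrum (𝓞 K)).adicCompletion K)) × (InfinitePlace K → GL (Fin 2) ℂ),
      ((((cT⁻¹ : ℝ) : ℂ) * ∏ v : S, locFn558 (L.βv v.1) (f₀ v.1) (locG305 v.1 γ) (p.1 v)) *
        ∑ j ∈ J, ∏ w : InfinitePlace K,
          locFn558 (L.βc w) (F w) (infGL305 w (T5.ratG γ * R.r ^ j)) (p.2 w))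
      ∂((Measure.pi fun v : S => L.μv v.1).prod (Measure.pi fun _ : InfinitePlace K => μc)))
    = _
  rw [h2]
  -- the factorised value
  have hfv : factVal305 R.r S L f₀ μc F
      = (∏ v ∈ S, locInt305 (L.μv v) (L.βv v) (f₀ v) (locG305 v γ)) *
        ∑ j ∈ J, ∏ w : InfinitePlace K,
          locInt305 μc (L.βc w) (F w) (infGL305 w (T5.ratG γ * R.r ^ j)) := by
    change (∑' j : ℤ, (∏ v ∈ S, locInt305 (L.μv v) (L.βv v) (f₀ v) (locG305 v γ)) *
      ∏ w : InfinitePlace K,
        locInt305 μc (L.βc w) (F w) (infGL305 w (T5.ratG γ * R.r ^ j))) = _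
    rw [tsum_eq_sum (s := J), Finset.mul_sum]
    intro j hj
    obtain ⟨w₀⟩ := (inferInstance : Nonempty (InfinitePlace K))
    have hz : locInt305 μc (L.βc w₀) (F w₀) (infGL305 w₀ (T5.ratG γ * R.r ^ j)) = 0 := by
      change (∫ y : GL (Fin 2) ℂ,
        (F w₀ (y⁻¹ * infGL305 w₀ (T5.ratG γ * R.r ^ j) * y) * ((L.βc w₀ y : ℝ) : ℂ)) ∂μc) = 0
      have h0 : (fun y : GL (Fin 2) ℂ =>
          F w₀ (y⁻¹ * infGL305 w₀ (T5.ratG γ * R.r ^ j) * y) * ((L.βc w₀ y : ℝ) : ℂ))
          = fun _ => 0 := by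
        funext y
        rw [hJ j hj w₀ y, zero_mul]
      rw [h0, integral_zero]
    rw [Finset.prod_eq_zero (Finset.mem_univ w₀) hz, mul_zero]
  rw [hfv]
  have hprod : (∏ v : S, ∫ x, locFn558 (L.βv v.1) (f₀ v.1) (locG305 v.1 γ) x ∂(L.μv v.1))
      = ∏ v ∈ S, locInt305 (L.μv v) (L.βv v) (f₀ v) (locG305 v γ) :=
    Finset.prod_coe_sort S (fun v => locInt305 (L.μv v) (L.βv v) (f₀ v) (locG305 v γ))
  rw [hprod]
  change c • ((((cT⁻¹ : ℝ) : ℂ) *
      ∏ v ∈ S, locInt305 (L.μv v) (L.βv v) (f₀ v) (locG305 v γ)) *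
      ∑ j ∈ J, ∏ w : InfinitePlace K,
        locInt305 μc (L.βc w) (F w) (infGL305 w (T5.ratG γ * R.r ^ j))) = _
  rw [Complex.real_smul]
  push_cast
  field_simp

/-- **THE NODE `FactDownC305` FROM THE LEAVES.** -/
theorem factDownC_of558 (hSD : SuppDownC305 K) (hHS : HaarSplitC305 K) (hOpen : OutOpenC558 K)
    (hCont : CompContC558 K) (hComm : TorCommIdC558 K) (hSO : SuppOutC558 K)
    (hCut : CutOnOutC558 K) (hBI : BiInvContC558 K) (hRF : RayFinC558 K) (hPF : PtFactC558 K)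
    (hAI : ArchIntblC558) (hσ : HaarSigmaC558 K) : FactDownC305 K := by
  have hA := cutOnDownC_of558 hSD hOpen hCont hComm hSO hσ hCut
  have hB := factIntDownC_of558 hHS hOpen hCont hBI hRF hPF hAI hσ
  intro hK R hR μc hμc T₀ m hm
  obtain ⟨cG, hcG, hint⟩ := hB hK R hR μc hμc T₀ m hm
  refine ⟨cG, hcG, ?_⟩
  intro S hS f₀ F hf₀ hF γ hγ hgood μT hμT L cT hL hcT hT
  exact ⟨hA R hR m S f₀ F γ hγ hgood μT hμT L cT hL hcT hT,
    hint S hS f₀ F hf₀ hF γ hγ hgood μT hμT L cT hL hcT hT⟩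

end Fermat.Agent.LT.T7.H558

end
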