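import Mathlib
import Fermat.Agent.LT.T7.H558.FactDownTopB
import Fermat.Agent.LT.T7.H841.SuppDown
import Fermat.Agent.LT.T7.H159.HaarSplit305
import Fermat.Agent.LT.T7.H729.OutOpen
import Fermat.Agent.LT.T7.H409.CompCont
import Fermat.Agent.LT.T7.H615.TorCommId
import Fermat.Agent.LT.T7.H221.SuppOut
import Fermat.Agent.LT.T7.H385.CutOnOut
import Fermat.Agent.LT.T7.H301.RayFin
import Fermat.Agent.LT.T7.H454.PtFact
import Fermat.Agent.LT.T7.H505.HaarSigma
import Fermat.Agent.LT.T7.H194.FD.ArchIntbl
import Fermat.Agent.LT.T7.H16.BiInvCont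

/-!
# Row LT, tower T7, node C2.7.7 `FactDownC305` (helper558, registry 2571): CLOSED, UNCONDITIONAL

OFF-MAIN.  Complete proof, nothing assumed.

    factDownC558 (K) : H305.FactDownC305 K

The node of helper305 (`T7/H305/MatchCut.lean`, sha256 0f302b81) from the cut of helper558
(`FactDownSpec.lean`, `FactDownTopA.lean`, `FactDownTopB.lean`) and the closed leaves, vendored
byte-identical:

| leaf | proof | file |
|---|---|---|
| `SuppDownC305` (helper305 C2.7.6) | helper841 `suppDownC841` | `T7/H841/SuppDown.lean` |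
| `HaarSplitC305` (helper305 C2.7.4) | helper159 `haarSplitC159` | `T7/H159/HaarSplit305.lean` |
| FD.1 `OutOpenC558` | helper729 `outOpenC729` | `T7/H729/OutOpen.lean` |
| FD.2 `CompContC558` | helper409 `compContC409` | `T7/H409/CompCont.lean` |
| FD.3 `TorCommIdC558` | helper615 `torCommIdC615` | `T7/H615/TorCommId.lean` |
| FD.4 `SuppOutC558` | helper221 `suppOutC221` | `T7/H221/SuppOut.lean` |
| FD.5 `CutOnOutC558` | helper385 `cutOnOutC385` | `T7/H385/CutOnOut.lean` |
| FD.6 `RayFinC558` | helper301 `rayFinC301` | `T7/H301/RayFin.lean` |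
| FD.7 `PtFactC558` | helper454 `ptFactC454` | `T7/H454/PtFact.lean` |
| FD.8 `ArchIntblC558` | helper194 `archIntblC194` | `T7/H194/FD/ArchIntbl.lean` |
| FD.9 `HaarSigmaC558` | helper505 `haarSigmaC505` | `T7/H505/HaarSigma.lean` |
| FD.10 `BiInvContC558` | helper16 `biInvContC558_16` | `T7/H16/BiInvCont.lean` |
-/

set_option autoImplicit false

open IsDedekindDomain NumberField

noncomputable section

namespace Fermat.Agent.LT.T7.H558

open Fermat.Agent.LT.T7

/-- **NODE C2.7.7 = FACT-DOWN, CLOSED.** -/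
theorem factDownC558 (K : Type) [Field K] [NumberField K] : H305.FactDownC305 K :=
  factDownC_of558 (H841.suppDownC841 K) (H159.haarSplitC159 K) (OutOpen729.outOpenC729 K)
    (H409.compContC409 K) (H615.torCommIdC615 K) (H221.suppOutC221 K) (H385.cutOnOutC385 K)
    (H16.biInvContC558_16 K) (H301.rayFinC301 K) (H454.PtFact.ptFactC454 K) H194.archIntblC194
    (H505.haarSigmaC505 K)

end Fermat.Agent.LT.T7.H558

end
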